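import Fermat.Agent.QuotientSums.Moments
import Mathlib.Analysis.PSeries

/-!
# Khinchin's weak law and Philipp's dichotomy

With the cut-off `n √(log n)` Chebyshev's inequality gives the weak law. For `b n / n` nondecreasing
with `∑ 1 / b n` finite the cut-off `b (2 ^ k)` over dyadic blocks gives `S_n = o(b n)` almost
everywhere, and if the series diverges single digits already exceed every multiple of `b n`.
-/

set_option autoImplicit false

noncomputable section

open MeasureTheory Filter Topology Set Real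
open FA.PeriodicFractions FA.PointwiseErgodic FA.GaussKuzmin
open scoped ENNReal

namespace FA.QuotientSums

theorem volume_le_gauss {A : Set ℝ} (hA : MeasurableSet A) :
    volume.real (Ioo 0 1 ∩ A) ≤ 2 * gaussMeasure.real A := by
  have hl1 : log 2 ≤ 1 := (log_le_sub_one_of_pos two_pos).trans (by norm_num)
  rw [← setIntegral_lebesgue hA]
  refine (setIntegral_mono (g := fun _ => (2 : ℝ)) (integrable_of_isLip isLip_lebesgue).integrableOn
    (integrable_const _).integrableOn fun x => ?_).trans_eq ?_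
  · nlinarith [(clamp_mem x).1, (clamp_mem x).2, log_pos one_lt_two]
  · rw [setIntegral_const, smul_eq_mul, mul_comm]

theorem measurableSet_deviation (N : ℕ) (c δ : ℝ) :
    MeasurableSet {y | δ ≤ |digitSum N y - c|} :=
  (continuous_abs.measurable.comp ((measurable_digitSum N).sub_const c))
    (measurableSet_Ici (a := δ))

/-- **Khinchin's weak law.** -/
theorem tendsto_volume_deviation {ε : ℝ} (hε : 0 < ε) :
    Tendsto (fun N : ℕ => volume.real (Ioo 0 1 ∩
      {y | ε ≤ |digitSum N y / ((N : ℝ) * log N) - 1 / log 2|})) atTop (𝓝 0) := by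
  have hs : Tendsto (fun N : ℕ => sqrt (log (N : ℝ))) atTop atTop :=
    tendsto_sqrt_atTop.comp (tendsto_log_atTop.comp tendsto_natCast_atTop_atTop)
  refine squeeze_zero' (Eventually.of_forall fun N => measureReal_nonneg) ?_
    ((tendsto_const_nhds (x := 4 + 448000 / ε ^ 2)).div_atTop hs)
  filter_upwards [eventually_ge_atTop 2, hs.eventually_ge_atTop (max 1 (16 / ε))] with N hN hsN
  set s := sqrt (log (N : ℝ))
  have hN' : (2 : ℝ) ≤ N := by exact_mod_cast hN
  have hs1 : 1 ≤ s := (le_max_left _ _).trans hsN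
  have hsε : 16 ≤ ε * s := by
    have := (le_max_right _ _).trans hsN
    rwa [div_le_iff₀' hε] at this
  have hL : log (N : ℝ) = s ^ 2 := (sq_sqrt (log_nonneg (by linarith))).symm
  set M := ⌈(N : ℝ) * s⌉₊
  have hM0 : 1 ≤ (N : ℝ) * s := by nlinarith
  have hM1 : (N : ℝ) * s ≤ M := Nat.le_ceil _
  have hM2 : (M : ℝ) ≤ 2 * ((N : ℝ) * s) := by
    have := Nat.ceil_lt_add_one (show 0 ≤ (N : ℝ) * s by linarith)
    linarith
  have hM : 1 ≤ M := by exact_mod_cast hM0.trans hM1
  have hlogM : |log (M : ℝ) - s ^ 2| ≤ 1 + s := by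
    rw [← hL]
    have h1 : log (N : ℝ) ≤ log (M : ℝ) :=
      log_le_log (by linarith) (le_trans (le_mul_of_one_le_right (by linarith) hs1) hM1)
    have h2 : log (M : ℝ) ≤ log 2 + (log (N : ℝ) + log s) := by
      rw [← log_mul (x := (N : ℝ)) (by linarith) (by linarith),
        ← log_mul two_ne_zero (by nlinarith)]
      exact log_le_log (by exact_mod_cast hM) hM2
    have h3 : log s ≤ s := log_le_self (by linarith)
    have h4 : log 2 ≤ 1 := (log_le_sub_one_of_pos two_pos).trans (by norm_num)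
    rw [abs_le]
    constructor <;> linarith
  have hl : (1 / 2 : ℝ) ≤ log 2 := by
    have := one_sub_inv_le_log_of_pos (two_pos (α := ℝ))
    norm_num at this ⊢
    exact this
  have hm : |truncMean M - s ^ 2 / log 2| ≤ ε / 2 * s ^ 2 := by
    have h := (abs_sub_le (log 2 * truncMean M) (log (M : ℝ)) (s ^ 2)).trans
      (add_le_add (abs_truncMean_sub_le hM) hlogM)
    have e : log 2 * truncMean M - s ^ 2 = log 2 * (truncMean M - s ^ 2 / log 2) := by
      rw [mul_sub, mul_div_cancel₀ _ (by linarith)]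
    rw [e, abs_mul, abs_of_pos (by linarith : 0 < log 2)] at h
    nlinarith [mul_le_mul_of_nonneg_right hl (abs_nonneg (truncMean M - s ^ 2 / log 2)),
      mul_le_mul_of_nonneg_right hsε (by linarith : (0 : ℝ) ≤ s)]
  have hδ : 0 < ε / 2 * ((N : ℝ) * s ^ 2) := by
    have : (0 : ℝ) < s := by linarith
    positivity
  have hsub : Ioo 0 1 ∩ {y | ε ≤ |digitSum N y / ((N : ℝ) * log N) - 1 / log 2|} ⊆
      Ioo 0 1 ∩ {y | ε / 2 * ((N : ℝ) * s ^ 2) ≤ |digitSum N y - N * truncMean M|} := by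
    rintro y ⟨hy, hy' : ε ≤ |digitSum N y / ((N : ℝ) * log N) - 1 / log 2|⟩
    refine ⟨hy, ?_⟩
    change ε / 2 * ((N : ℝ) * s ^ 2) ≤ |digitSum N y - N * truncMean M|
    have hpos : (0 : ℝ) < (N : ℝ) * s ^ 2 := by nlinarith
    rw [hL] at hy'
    have e : digitSum N y - N * (s ^ 2 / log 2) =
        (N : ℝ) * s ^ 2 * (digitSum N y / ((N : ℝ) * s ^ 2) - 1 / log 2) := by
      have : log 2 ≠ 0 := by linarith
      field_simp
    have h1 : ε * ((N : ℝ) * s ^ 2) ≤ |digitSum N y - N * (s ^ 2 / log 2)| := by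
      rw [e, abs_mul, abs_of_pos hpos, mul_comm]
      exact mul_le_mul_of_nonneg_left hy' hpos.le
    have h2 : |(N : ℝ) * truncMean M - N * (s ^ 2 / log 2)| ≤ ε / 2 * ((N : ℝ) * s ^ 2) := by
      rw [← mul_sub, abs_mul, Nat.abs_cast]
      calc (N : ℝ) * |truncMean M - s ^ 2 / log 2| ≤ N * (ε / 2 * s ^ 2) := by gcongr
        _ = _ := by ring
    linarith [abs_sub_le (digitSum N y) ((N : ℝ) * truncMean M) ((N : ℝ) * (s ^ 2 / log 2))]
  refine ((measureReal_mono hsub (ne_top_of_le_ne_top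
    (by simp : volume (Ioo (0 : ℝ) 1) ≠ ⊤) (measure_mono inter_subset_left))).trans
    (volume_le_gauss (measurableSet_deviation _ _ _))).trans ?_
  refine (mul_le_mul_of_nonneg_left (gauss_deviation_le hM N hδ) zero_le_two).trans ?_
  have hA : 2 * (N : ℝ) / M ≤ 2 / s := by
    rw [div_le_div_iff₀ (by linarith) (by linarith)]
    linarith
  have hB : 28000 * (N : ℝ) * M / (ε / 2 * ((N : ℝ) * s ^ 2)) ^ 2 ≤ 224000 / ε ^ 2 / s := by
    calc 28000 * (N : ℝ) * M / (ε / 2 * ((N : ℝ) * s ^ 2)) ^ 2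
        ≤ 28000 * (N : ℝ) * (2 * ((N : ℝ) * s)) / (ε / 2 * ((N : ℝ) * s ^ 2)) ^ 2 := by gcongr
      _ = 224000 / ε ^ 2 / s ^ 3 := by
          have : s ≠ 0 := by linarith
          field_simp
          ring
      _ ≤ _ := by
          refine div_le_div_of_nonneg_left (by positivity) (by linarith) ?_
          calc s = s * 1 := (mul_one s).symm
            _ ≤ s * (s * s) := by gcongr; nlinarith
            _ = s ^ 3 := by ring
  calc 2 * (2 * (N : ℝ) / M + 28000 * N * M / (ε / 2 * ((N : ℝ) * s ^ 2)) ^ 2)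
      ≤ 2 * (2 / s + 224000 / ε ^ 2 / s) := by linarith
    _ = (4 + 448000 / ε ^ 2) / s := by ring

/-- A nonincreasing summable sequence is `o(1 / k)`. -/
theorem tendsto_mul_of_antitone {c : ℕ → ℝ} (h0 : ∀ k, 0 ≤ c k) (hc : Antitone c)
    (hs : Summable c) : Tendsto (fun k : ℕ => (k : ℝ) * c k) atTop (𝓝 0) := by
  have hlim := (hs.hasSum.tendsto_sum_nat.sub (hs.hasSum.tendsto_sum_nat.comp
    (Nat.tendsto_div_const_atTop two_ne_zero))).const_mul 2
  rw [sub_self, mul_zero] at hlim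
  refine squeeze_zero (fun k => mul_nonneg k.cast_nonneg (h0 k)) (fun k => ?_) hlim
  simp only [Function.comp_apply]
  rw [← Finset.sum_Ico_eq_sub _ (Nat.div_le_self k 2)]
  have h1 : ((k - k / 2 : ℕ) : ℝ) * c k ≤ ∑ i ∈ Finset.Ico (k / 2) k, c i := by
    have := Finset.card_nsmul_le_sum (Finset.Ico (k / 2) k) c (c k)
      fun i hi => hc (Finset.mem_Ico.1 hi).2.le
    rwa [Nat.card_Ico, nsmul_eq_mul] at this
  have h2 : (k : ℝ) ≤ 2 * ((k - k / 2 : ℕ) : ℝ) := by
    exact_mod_cast (by omega : k ≤ 2 * (k - k / 2))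
  calc (k : ℝ) * c k ≤ 2 * ((k - k / 2 : ℕ) : ℝ) * c k := mul_le_mul_of_nonneg_right h2 (h0 k)
    _ ≤ 2 * ∑ i ∈ Finset.Ico (k / 2) k, c i := by rw [mul_assoc]; linarith

/-- The dyadic values of a normalisation with a finite series. -/
theorem dyadic_facts {b : ℕ → ℝ} (hpos : ∀ n, 1 ≤ n → 0 < b n)
    (hmono : ∀ m n : ℕ, 1 ≤ m → m ≤ n → b m / m ≤ b n / n) (hs : Summable fun n => 1 / b n) :
    Summable (fun k : ℕ => 2 ^ k / b (2 ^ k)) ∧
      Tendsto (fun k : ℕ => 2 ^ k / b (2 ^ k) * log (b (2 ^ k))) atTop (𝓝 0) ∧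
      (∀ᶠ k : ℕ in atTop, 1 ≤ b (2 ^ k)) ∧ ∀ m n : ℕ, 1 ≤ m → m ≤ n → b m ≤ b n := by
  have hb : ∀ m n : ℕ, 1 ≤ m → m ≤ n → b m ≤ b n := fun m n hm hmn => by
    have h1 := hmono m n hm hmn
    have hm' : (0 : ℝ) < m := by exact_mod_cast hm
    have hmn' : (m : ℝ) ≤ n := by exact_mod_cast hmn
    have hn' : (0 : ℝ) < n := hm'.trans_le hmn'
    rw [div_le_div_iff₀ hm' hn'] at h1
    exact le_of_mul_le_mul_right
      (h1.trans (mul_le_mul_of_nonneg_left hmn' (hpos n (hm.trans hmn)).le)) hn'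
  set f : ℕ → ℝ := fun n => if n = 0 then 0 else 1 / b n with hf
  have hf0 : ∀ n, 0 ≤ f n := fun n => by
    simp only [hf]
    split_ifs with h
    · exact le_rfl
    · exact (one_div_pos.2 (hpos n (Nat.one_le_iff_ne_zero.2 h))).le
  have hfs : Summable f := hs.congr_atTop (by
    filter_upwards [eventually_ne_atTop 0] with n hn
    simp only [hf, if_neg hn])
  have hc : Summable fun k : ℕ => (2 : ℝ) ^ k / b (2 ^ k) := by
    refine ((summable_condensed_iff_of_nonneg hf0 fun m n hm hmn => ?_).2 hfs).congr fun k => ?_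
    · simp only [hf, if_neg hm.ne', if_neg (hm.trans_le hmn).ne']
      exact one_div_le_one_div_of_le (hpos m hm) (hb m n hm hmn)
    · simp only [hf, if_neg (pow_ne_zero k two_ne_zero), mul_one_div]
  have hc0 : ∀ k : ℕ, 0 < (2 : ℝ) ^ k / b (2 ^ k) := fun k =>
    div_pos (pow_pos two_pos k) (hpos _ Nat.one_le_two_pow)
  have hanti : Antitone fun k : ℕ => (2 : ℝ) ^ k / b (2 ^ k) := fun j k hjk => by
    have h := hmono (2 ^ j) (2 ^ k) Nat.one_le_two_pow (Nat.pow_le_pow_right two_pos hjk)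
    push_cast at h
    have h' := one_div_le_one_div_of_le (div_pos (hpos _ Nat.one_le_two_pow) (pow_pos two_pos j)) h
    rwa [one_div_div, one_div_div] at h'
  have hev : ∀ᶠ k : ℕ in atTop, 1 ≤ b (2 ^ k) := by
    filter_upwards [hc.tendsto_atTop_zero.eventually_lt_const one_pos] with k hk
    rw [div_lt_one (hpos _ Nat.one_le_two_pow)] at hk
    exact (one_le_pow₀ one_le_two).trans hk.le
  refine ⟨hc, ?_, hev, hb⟩
  have hkc := (tendsto_mul_of_antitone (fun k => (hc0 k).le) hanti hc).const_mul 4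
  have hgeo : Tendsto (fun k : ℕ => 2 * (1 / 2 : ℝ) ^ k) atTop (𝓝 0) := by
    simpa using (tendsto_pow_atTop_nhds_zero_of_lt_one (by norm_num)
      (by norm_num : (1 / 2 : ℝ) < 1)).const_mul 2
  have hbound := hkc.add hgeo
  rw [mul_zero, add_zero] at hbound
  refine squeeze_zero' (hev.mono fun k hk => mul_nonneg (hc0 k).le (log_nonneg hk))
    (hev.mono fun k hk => ?_) hbound
  have hB : 0 < b (2 ^ k) := hpos _ Nat.one_le_two_pow
  rcases le_total (b (2 ^ k)) ((16 : ℝ) ^ k) with h | h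
  · have h1 : log (b (2 ^ k)) ≤ 4 * (k : ℝ) := by
      refine (log_le_log hB h).trans ?_
      rw [log_pow, show (16 : ℝ) = 2 ^ 4 by norm_num, log_pow]
      have h4 : log 2 ≤ 1 := (log_le_sub_one_of_pos two_pos).trans (by norm_num)
      push_cast
      nlinarith [Nat.cast_nonneg (α := ℝ) k]
    have h2 := mul_le_mul_of_nonneg_left h1 (hc0 k).le
    have : (0 : ℝ) ≤ 2 * (1 / 2) ^ k := by positivity
    linarith
  · have h1 : log (b (2 ^ k)) ≤ 2 * sqrt (b (2 ^ k)) := by
      have := log_le_self (Real.sqrt_nonneg (b (2 ^ k)))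
      rw [log_sqrt hB.le] at this
      linarith
    have h2 : ((4 : ℝ) ^ k) ≤ sqrt (b (2 ^ k)) := by
      refine le_sqrt_of_sq_le ?_
      rw [← pow_mul, mul_comm, pow_mul]
      norm_num
      exact h
    have h3 : 2 ^ k / b (2 ^ k) * log (b (2 ^ k)) ≤ 2 * (1 / 2) ^ k := by
      calc 2 ^ k / b (2 ^ k) * log (b (2 ^ k))
          ≤ 2 ^ k / b (2 ^ k) * (2 * sqrt (b (2 ^ k))) :=
            mul_le_mul_of_nonneg_left h1 (hc0 k).le
        _ = 2 * 2 ^ k / sqrt (b (2 ^ k)) := by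
            have hsq : sqrt (b (2 ^ k)) ≠ 0 := (sqrt_pos.2 hB).ne'
            rw [eq_div_iff hsq, div_mul_eq_mul_div, div_mul_eq_mul_div, div_eq_iff hB.ne']
            linear_combination (2 * (2 : ℝ) ^ k) * (mul_self_sqrt hB.le)
        _ ≤ 2 * 2 ^ k / (4 : ℝ) ^ k := by gcongr
        _ = _ := by
            rw [mul_div_assoc, ← div_pow]
            norm_num
    have : (0 : ℝ) ≤ 4 * ((k : ℝ) * (2 ^ k / b (2 ^ k))) := by
      have := hc0 k
      positivity
    linarith

/-- **Philipp's dichotomy**, convergence along the Gauss measure. -/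
theorem ae_gauss_small {b : ℕ → ℝ} (hpos : ∀ n, 1 ≤ n → 0 < b n)
    (hmono : ∀ m n : ℕ, 1 ≤ m → m ≤ n → b m / m ≤ b n / n) (hs : Summable fun n => 1 / b n) :
    ∀ᵐ y ∂gaussMeasure, ∀ e : ℕ, ∀ᶠ k : ℕ in atTop,
      digitSum (2 ^ (k + 1)) y ≤ b (2 ^ k) / ((e : ℝ) + 1) := by
  obtain ⟨hc, hclog, hev, -⟩ := dyadic_facts hpos hmono hs
  refine ae_all_iff.2 fun e => ?_
  set η := 1 / ((e : ℝ) + 1) with hη
  have hη0 : 0 < η := by positivity
  set bad : ℕ → Set ℝ := fun k => {y | b (2 ^ k) * η < digitSum (2 ^ (k + 1)) y}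
  have hbad : ∀ᶠ k : ℕ in atTop,
      gaussMeasure.real (bad k) ≤ (4 + 448000 / η ^ 2) * (2 ^ k / b (2 ^ k)) := by
    have h1 := (hclog.const_mul 4).add (hc.tendsto_atTop_zero.const_mul 12)
    rw [mul_zero, mul_zero, add_zero] at h1
    filter_upwards [hev, h1.eventually_lt_const (half_pos hη0)] with k hk1 hk2
    set B := b (2 ^ k)
    set M := ⌈B⌉₊
    have hB : 0 < B := by linarith
    have hM1 : B ≤ M := Nat.le_ceil _
    have hM2 : (M : ℝ) ≤ 2 * B := by
      have := Nat.ceil_lt_add_one hB.le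
      linarith
    have hM : 1 ≤ M := by exact_mod_cast hk1.trans hM1
    have hm : ((2 ^ (k + 1) : ℕ) : ℝ) * truncMean M ≤ η / 2 * B := by
      have h2 : log (M : ℝ) ≤ 1 + log B := by
        refine (log_le_log (by exact_mod_cast hM) hM2).trans ?_
        rw [log_mul two_ne_zero hB.ne']
        linarith [log_le_sub_one_of_pos (two_pos (α := ℝ))]
      have h3 : truncMean M ≤ 2 * log B + 6 := (truncMean_le hM).trans (by linarith)
      calc ((2 ^ (k + 1) : ℕ) : ℝ) * truncMean M ≤ ((2 ^ (k + 1) : ℕ) : ℝ) * (2 * log B + 6) := by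
            gcongr
        _ = B * (4 * (2 ^ k / B * log B) + 12 * (2 ^ k / B)) := by
            push_cast
            field_simp
            ring
        _ ≤ B * (η / 2) := mul_le_mul_of_nonneg_left hk2.le hB.le
        _ = _ := mul_comm _ _
    have hsub : bad k ⊆
        {y | η / 2 * B ≤ |digitSum (2 ^ (k + 1)) y - (2 ^ (k + 1) : ℕ) * truncMean M|} :=
      fun y (hy : B * η < digitSum (2 ^ (k + 1)) y) => by
        change η / 2 * B ≤ |digitSum (2 ^ (k + 1)) y - _|
        exact le_abs.2 (Or.inl (by linarith))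
    refine ((measureReal_mono hsub).trans
      (gauss_deviation_le hM (2 ^ (k + 1)) (by positivity))).trans ?_
    calc 2 * ((2 ^ (k + 1) : ℕ) : ℝ) / M +
          28000 * ((2 ^ (k + 1) : ℕ) : ℝ) * M / (η / 2 * B) ^ 2
        ≤ 2 * ((2 ^ (k + 1) : ℕ) : ℝ) / B +
          28000 * ((2 ^ (k + 1) : ℕ) : ℝ) * (2 * B) / (η / 2 * B) ^ 2 := by gcongr
      _ = _ := by
          push_cast
          field_simp
          ring
  have hsum : Summable fun k => gaussMeasure.real (bad k) :=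
    Summable.of_norm_bounded_eventually_nat (hc.mul_left _)
      (hbad.mono fun k hk => by rwa [Real.norm_eq_abs, abs_of_nonneg measureReal_nonneg])
  have htsum : ∑' k, gaussMeasure (bad k) ≠ ⊤ := by
    simp only [← ofReal_measureReal (measure_ne_top gaussMeasure (bad _))]
    rw [← ENNReal.ofReal_tsum_of_nonneg (fun k => measureReal_nonneg) hsum]
    exact ENNReal.ofReal_ne_top
  filter_upwards [ae_eventually_notMem htsum] with y hy
  filter_upwards [hy] with k hk
  rw [show b (2 ^ k) / ((e : ℝ) + 1) = b (2 ^ k) * η by rw [hη, mul_one_div]]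
  exact not_lt.1 hk

theorem digitSum_fract {x : ℝ} (hx : Irrational x) (N : ℕ) :
    digitSum N (Int.fract x) = ∑ i ∈ Finset.range N, (digit x (i + 1) : ℝ) :=
  Finset.sum_congr rfl fun i _ => by rw [digit_eq_iterate hx]

theorem one_le_digit_cast {x : ℝ} (hx : Irrational x) (i : ℕ) : (1 : ℝ) ≤ digit x (i + 1) := by
  exact_mod_cast one_le_digit hx i

/-- **Philipp's dichotomy**, convergence. -/
theorem ae_digit_sum_small {b : ℕ → ℝ} (hpos : ∀ n, 1 ≤ n → 0 < b n)
    (hmono : ∀ m n : ℕ, 1 ≤ m → m ≤ n → b m / m ≤ b n / n) (hs : Summable fun n => 1 / b n) :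
    ∀ᵐ x : ℝ, Irrational x ∧
      Tendsto (fun n : ℕ => (∑ i ∈ Finset.range n, (digit x (i + 1) : ℝ)) / b n) atTop (𝓝 0) := by
  obtain ⟨-, -, -, hb⟩ := dyadic_facts hpos hmono hs
  filter_upwards [ae_real_of_gauss (ae_gauss_small hpos hmono hs)] with x ⟨hx, h⟩
  refine ⟨hx, Metric.tendsto_atTop.2 fun ε hε => ?_⟩
  obtain ⟨e, he⟩ := exists_nat_one_div_lt hε
  obtain ⟨K, hK⟩ := eventually_atTop.1 (h e)
  refine ⟨2 ^ K, fun n hn => ?_⟩
  have hn1 : 1 ≤ n := Nat.one_le_two_pow.trans hn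
  obtain ⟨k, hk1, hk2⟩ : ∃ k, 2 ^ k ≤ n ∧ n < 2 ^ (k + 1) :=
    ⟨Nat.log 2 n, Nat.pow_log_le_self 2 (by omega), Nat.lt_pow_succ_log_self one_lt_two n⟩
  have hKk : K ≤ k := by
    have := (pow_lt_pow_iff_right₀ one_lt_two).1 (hn.trans_lt hk2)
    omega
  have hS0 : 0 ≤ ∑ i ∈ Finset.range n, (digit x (i + 1) : ℝ) :=
    Finset.sum_nonneg fun i _ => zero_le_one.trans (one_le_digit_cast hx i)
  have hle : ∑ i ∈ Finset.range n, (digit x (i + 1) : ℝ) ≤ b n / ((e : ℝ) + 1) :=
    calc ∑ i ∈ Finset.range n, (digit x (i + 1) : ℝ)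
        ≤ ∑ i ∈ Finset.range (2 ^ (k + 1)), (digit x (i + 1) : ℝ) :=
          Finset.sum_le_sum_of_subset_of_nonneg (Finset.range_subset_range.2 hk2.le)
            fun i _ _ => zero_le_one.trans (one_le_digit_cast hx i)
      _ ≤ b (2 ^ k) / ((e : ℝ) + 1) := digitSum_fract hx _ ▸ hK k hKk
      _ ≤ b n / ((e : ℝ) + 1) := by gcongr; exact hb _ _ Nat.one_le_two_pow hk1
  rw [Real.dist_eq, sub_zero, abs_of_nonneg (div_nonneg hS0 (hpos n hn1).le),
    div_lt_iff₀ (hpos n hn1)]
  refine hle.trans_lt ?_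
  rw [← mul_one_div, mul_comm]
  exact mul_lt_mul_of_pos_right he (hpos n hn1)

/-- **Philipp's dichotomy**, divergence. -/
theorem ae_digit_sum_large {b : ℕ → ℝ} (hpos : ∀ n, 1 ≤ n → 0 < b n)
    (hdiv : ¬Summable fun n => 1 / b n) :
    ∀ᵐ x : ℝ, Irrational x ∧
      ∀ K : ℝ, ∃ᶠ n : ℕ in atTop, K ≤ (∑ i ∈ Finset.range n, (digit x (i + 1) : ℝ)) / b n := by
  have key : ∀ e : ℕ, ∀ᵐ x : ℝ, Irrational x ∧
      {i | max (((e : ℝ) + 1) * b (i + 1)) 1 ≤ (digit x (i + 1) : ℝ)}.Infinite := fun e => by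
    refine BorelBernstein.ae_infinite_large_digits (fun i => le_max_right _ _) fun hs => hdiv ?_
    have h1 : Summable fun i => 1 / (((e : ℝ) + 1) * b (i + 1)) := by
      refine hs.congr_atTop ?_
      filter_upwards [hs.tendsto_atTop_zero.eventually_lt_const one_pos] with i hi
      rcases le_total (((e : ℝ) + 1) * b (i + 1)) 1 with h | h
      · rw [max_eq_right h, div_one] at hi
        exact absurd hi (lt_irrefl 1)
      · rw [max_eq_left h]
    refine (summable_nat_add_iff 1).1 ((h1.mul_left ((e : ℝ) + 1)).congr fun i => ?_)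
    have he : (e : ℝ) + 1 ≠ 0 := by positivity
    field_simp
  filter_upwards [ae_all_iff.2 key] with x hx
  refine ⟨(hx 0).1, fun K => frequently_atTop.2 fun N => ?_⟩
  obtain ⟨e, he⟩ := exists_nat_ge K
  obtain ⟨i, hi, hiN⟩ := (hx e).2.exists_gt N
  refine ⟨i + 1, by omega, ?_⟩
  rw [le_div_iff₀ (hpos _ (by omega))]
  calc K * b (i + 1) ≤ ((e : ℝ) + 1) * b (i + 1) :=
        mul_le_mul_of_nonneg_right (he.trans (le_add_of_nonneg_right zero_le_one))
          (hpos _ (by omega)).le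
    _ ≤ digit x (i + 1) := (le_max_left _ _).trans hi
    _ ≤ ∑ j ∈ Finset.range (i + 1), (digit x (j + 1) : ℝ) :=
        Finset.single_le_sum (f := fun j => (digit x (j + 1) : ℝ))
          (fun j _ => zero_le_one.trans (one_le_digit_cast (hx 0).1 j))
          (Finset.self_mem_range_succ i)

end FA.QuotientSums
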