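import Fermat.Agent.BorelBernstein.Main
import Fermat.Agent.GaussKuzmin.Main
import Mathlib.Data.Nat.Dist
import Mathlib.NumberTheory.Harmonic.Bounds

/-!
# The moments of the truncated digits

The indicator of a digit is carried by the transfer operator to one branch weight, whose Lipschitz
constant is at most `16` times the probability of the digit, so the covariances of the truncated
digits decay geometrically relative to the products of their means.
-/

set_option autoImplicit false

noncomputable section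

open MeasureTheory Filter Topology Set Real
open FA.PeriodicFractions FA.PointwiseErgodic FA.GaussKuzmin
open scoped ENNReal

namespace FA.QuotientSums

theorem gauss_digit_inter (k : ℕ) {B : Set ℝ} (hB : MeasurableSet B) :
    gaussMeasure.real (digitSet k ∩ gaussMap ⁻¹' B) =
      ∫ u in B, branchWeight k (clamp u) ∂gaussMeasure := by
  have hm : Measurable fun u : ℝ => branchWeight k (clamp u) := by
    unfold branchWeight clamp
    fun_prop
  rw [integral_eq_lintegral_of_nonneg_ae
    (ae_of_all _ fun u => branchWeight_nonneg k (clamp_mem u).1) hm.aestronglyMeasurable,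
    measureReal_def]
  congr 1
  have hS : MeasurableSet (digitSet k ∩ gaussMap ⁻¹' B) :=
    (measurableSet_digitSet k).inter (measurable_gaussMap hB)
  rw [← setLIntegral_one, setLIntegral_gauss _ measurable_const hS,
    setLIntegral_gauss _ hm.ennreal_ofReal hB, DoeblinLenstra.lintegral_branches]
  have hterm : ∀ n : ℕ, AEMeasurable (fun u : ℝ => ENNReal.ofReal (1 / ((n : ℝ) + 1 + u) ^ 2) *
      (ENNReal.ofReal (gaussDensity (1 / ((n : ℝ) + 1 + u))) *
        (digitSet k ∩ gaussMap ⁻¹' B).indicator (fun _ => 1) (1 / ((n : ℝ) + 1 + u))))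
      DoeblinLenstra.unitVol := fun n => by
    have hb : Measurable fun u : ℝ => 1 / ((n : ℝ) + 1 + u) := by fun_prop
    refine (Measurable.mul (by fun_prop) (Measurable.mul
      ((by unfold gaussDensity; fun_prop : Measurable fun x => ENNReal.ofReal
        (gaussDensity x)).comp hb) ?_)).aemeasurable
    exact (measurable_const.indicator hS).comp hb
  rw [← lintegral_tsum hterm]
  refine setLIntegral_congr_fun measurableSet_Ioo fun u hu => ?_
  have hiff : ∀ n : ℕ, 1 / ((n : ℝ) + 1 + u) ∈ digitSet k ∩ gaussMap ⁻¹' B ↔ n = k ∧ u ∈ B :=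
    fun n => by
      obtain ⟨-, h1, h2⟩ := DoeblinLenstra.branch_facts n hu
      simp only [digitSet, mem_inter_iff, mem_preimage, Set.mem_ofPred_eq, h1, h2]
      exact and_congr_left fun _ => by omega
  rw [tsum_eq_single k fun n hn => by
    rw [indicator_of_notMem fun h => hn ((hiff n).1 h).1, mul_zero, mul_zero]]
  by_cases hmem : u ∈ B
  · have hu' : u ∈ Icc (0 : ℝ) 1 := Ioo_subset_Icc_self hu
    have := log_pos one_lt_two
    have := hu.1
    rw [indicator_of_mem hmem, indicator_of_mem ((hiff k).2 ⟨rfl, hmem⟩), clamp_of_mem hu',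
      mul_one, ← ENNReal.ofReal_mul (by positivity),
      ← ENNReal.ofReal_mul (by unfold gaussDensity; positivity), gaussDensity, gaussDensity,
      branchWeight]
    congr 1
    field_simp
    ring
  · rw [indicator_of_notMem hmem, indicator_of_notMem fun h => hmem ((hiff k).1 h).2, mul_zero,
      mul_zero, mul_zero]

theorem isLip_branchWeight (k : ℕ) :
    IsLip (fun u => branchWeight k (clamp u)) (4 / ((k : ℝ) + 1) ^ 2) := fun u v => by
  have key : ∀ x y : ℝ, x ∈ Icc (0 : ℝ) 1 → y ∈ Icc (0 : ℝ) 1 →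
      |branchWeight k x - branchWeight k y| ≤ 4 / ((k : ℝ) + 1) ^ 2 * |x - y| := fun x y hx hy => by
    have hk := Nat.cast_nonneg (α := ℝ) k
    have hx0 := hx.1
    have hy0 := hy.1
    have hden : ((k : ℝ) + 1) ^ 4 ≤
        ((k : ℝ) + 1 + x) * ((k : ℝ) + 1 + y) * (((k : ℝ) + 2 + x) * ((k : ℝ) + 2 + y)) := by
      rw [show ((k : ℝ) + 1) ^ 4 =
        ((k : ℝ) + 1) * ((k : ℝ) + 1) * (((k : ℝ) + 1) * ((k : ℝ) + 1)) by ring]
      refine mul_le_mul (mul_le_mul ?_ ?_ ?_ ?_) (mul_le_mul ?_ ?_ ?_ ?_) ?_ ?_ <;>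
        first | positivity | linarith
    have e : branchWeight k x - branchWeight k y = (x - y) *
        ((k : ℝ) * (2 * k + 3 + x + y) - ((k : ℝ) + 1 + x) * ((k : ℝ) + 1 + y)) /
          (((k : ℝ) + 1 + x) * ((k : ℝ) + 1 + y) * (((k : ℝ) + 2 + x) * ((k : ℝ) + 2 + y))) := by
      simp only [branchWeight]
      field_simp
      ring
    have hnum : |(k : ℝ) * (2 * k + 3 + x + y) - ((k : ℝ) + 1 + x) * ((k : ℝ) + 1 + y)| ≤
        4 * ((k : ℝ) + 1) ^ 2 := by
      have h1 : ((k : ℝ) + 1 + x) * ((k : ℝ) + 1 + y) ≤ ((k : ℝ) + 2) * ((k : ℝ) + 2) :=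
        mul_le_mul (by linarith [hx.2]) (by linarith [hy.2]) (by positivity) (by positivity)
      have h2 : (k : ℝ) * (2 * k + 3 + x + y) ≤ (k : ℝ) * (2 * k + 5) :=
        mul_le_mul_of_nonneg_left (by linarith [hx.2, hy.2]) hk
      rw [abs_le]
      constructor
      · nlinarith [mul_nonneg hk hk, mul_nonneg hk (add_nonneg hx0 hy0)]
      · nlinarith [mul_nonneg (add_nonneg hk hx0) (add_nonneg hk hy0), mul_nonneg hk hk]
    rw [e, abs_div, abs_mul,
      abs_of_pos ((by positivity : (0 : ℝ) < ((k : ℝ) + 1) ^ 4).trans_le hden)]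
    refine (div_le_div₀ (by positivity) (mul_le_mul_of_nonneg_left hnum (abs_nonneg _))
      (by positivity) hden).trans_eq ?_
    field_simp
  exact (key _ _ (clamp_mem u) (clamp_mem v)).trans
    (mul_le_mul_of_nonneg_left (abs_clamp_sub u v) (by positivity))

theorem prob_bounds (k : ℕ) :
    1 / ((k : ℝ) + 2) ^ 2 ≤ log 2 * gaussProb k ∧
      log 2 * gaussProb k ≤ 1 / (((k : ℝ) + 1) * ((k : ℝ) + 3)) := by
  have hl := log_pos one_lt_two
  have hpos : (0 : ℝ) < ((k : ℝ) + 1) * ((k : ℝ) + 3) := by positivity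
  rw [gaussProb, mul_div_cancel₀ _ hl.ne']
  refine ⟨le_trans (le_of_eq ?_) (one_sub_inv_le_log_of_pos (by positivity)),
    (log_le_sub_one_of_pos (by positivity)).trans_eq (add_sub_cancel_left _ _)⟩
  field_simp
  ring

theorem prob_nonneg (k : ℕ) : 0 ≤ gaussProb k :=
  div_nonneg (log_nonneg (le_add_of_nonneg_right (by positivity))) (log_pos one_lt_two).le

theorem lipschitz_le_prob (k : ℕ) : 4 / ((k : ℝ) + 1) ^ 2 ≤ 16 * gaussProb k := by
  have hl1 : log 2 ≤ 1 := (log_le_sub_one_of_pos two_pos).trans (by norm_num)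
  have h1 : 1 / (4 * ((k : ℝ) + 1) ^ 2) ≤ gaussProb k :=
    le_trans (one_div_le_one_div_of_le (by positivity) (by nlinarith [Nat.cast_nonneg (α := ℝ) k]))
      ((prob_bounds k).1.trans (mul_le_of_le_one_left (prob_nonneg k) hl1))
  calc 4 / ((k : ℝ) + 1) ^ 2 = 16 * (1 / (4 * ((k : ℝ) + 1) ^ 2)) := by
        rw [mul_one_div, div_eq_div_iff (by positivity) (by positivity)]
        ring
    _ ≤ _ := by linarith

/-- **The decay of the correlations of two digits.** -/
theorem abs_digit_pair_sub_le (k l i d : ℕ) :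
    |gaussMeasure.real (gaussMap^[i] ⁻¹' digitSet k ∩ gaussMap^[i + (d + 1)] ⁻¹' digitSet l) -
      gaussProb k * gaussProb l| ≤ 16 * (11 / 12) ^ d * gaussProb k * gaussProb l := by
  have hB : MeasurableSet (gaussMap^[d] ⁻¹' digitSet l) :=
    measurable_gaussMap.iterate d (measurableSet_digitSet l)
  have e : gaussMeasure.real
      (gaussMap^[i] ⁻¹' digitSet k ∩ gaussMap^[i + (d + 1)] ⁻¹' digitSet l) =
      ∫ u in gaussMap^[d] ⁻¹' digitSet l, branchWeight k (clamp u) ∂gaussMeasure := by
    rw [← gauss_digit_inter k hB, add_comm i (d + 1), Function.iterate_add, preimage_comp,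
      ← preimage_inter, measureReal_def, (measurePreserving_gaussMap.iterate i).measure_preimage
        ((measurableSet_digitSet k).inter
          (measurable_gaussMap.iterate (d + 1) (measurableSet_digitSet l))).nullMeasurableSet,
      ← measureReal_def, Function.iterate_succ, preimage_comp]
  have hmean : ∫ u, branchWeight k (clamp u) ∂gaussMeasure = gaussProb k := by
    rw [← setIntegral_univ, ← gauss_digit_inter k MeasurableSet.univ, preimage_univ, inter_univ,
      gaussMeasureReal_digitSet]
  have h := abs_setIntegral_sub_le (isLip_branchWeight k)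
    (fun u => branchWeight_nonneg k (clamp_mem u).1) (measurableSet_digitSet l) d
  rw [← e, hmean, gaussMeasureReal_digitSet, mul_comm (gaussProb l)] at h
  refine h.trans ?_
  have h2 := mul_le_mul_of_nonneg_left (lipschitz_le_prob k)
    (mul_nonneg (by positivity : (0 : ℝ) ≤ (11 / 12) ^ d) (prob_nonneg l))
  linarith

/-- The digit cut off above `M`. -/
def trunc (M : ℕ) (z : ℝ) : ℝ := ∑ k ∈ Finset.range M, ((k : ℝ) + 1) * (digitSet k).indicator 1 z

/-- Its mean. -/
def truncMean (M : ℕ) : ℝ := ∑ k ∈ Finset.range M, ((k : ℝ) + 1) * gaussProb k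

theorem trunc_eq {M : ℕ} {z : ℝ} (h1 : 1 ≤ ⌊z⁻¹⌋) (h2 : ⌊z⁻¹⌋ ≤ M) :
    trunc M z = (⌊z⁻¹⌋ : ℝ) := by
  obtain ⟨j, hj⟩ := Int.eq_ofNat_of_zero_le (show 0 ≤ ⌊z⁻¹⌋ - 1 by omega)
  rw [trunc, Finset.sum_eq_single_of_mem j (Finset.mem_range.2 (by omega))]
  · have hz : z ∈ digitSet j := show ⌊z⁻¹⌋ = (j : ℤ) + 1 by omega
    rw [indicator_of_mem hz, Pi.one_apply, mul_one,
      show ⌊z⁻¹⌋ = (j : ℤ) + 1 by omega]
    push_cast
    rfl
  · intro k _ hk
    have hz : z ∉ digitSet k := fun h => hk (by
      have h' : ⌊z⁻¹⌋ = (k : ℤ) + 1 := h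
      omega)
    rw [indicator_of_notMem hz, mul_zero]

theorem abs_truncMean_sub_le {M : ℕ} (hM : 1 ≤ M) : |log 2 * truncMean M - log M| ≤ 2 := by
  have hlo := log_add_one_le_harmonic M
  have hhi := harmonic_le_one_add_log M
  rw [harmonic] at hlo hhi
  push_cast at hlo hhi
  rw [truncMean, Finset.mul_sum, abs_le]
  constructor
  · have htel : ∀ N : ℕ, ∑ k ∈ Finset.range N, 2 / (((k : ℝ) + 1) * ((k : ℝ) + 2)) =
        2 - 2 / ((N : ℝ) + 1) := fun N => by
      induction N with
      | zero => norm_num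
      | succ N ih =>
        rw [Finset.sum_range_succ, ih]
        push_cast
        field_simp
        ring
    have h : ∑ k ∈ Finset.range M, ((k : ℝ) + 1)⁻¹ -
        ∑ k ∈ Finset.range M, 2 / (((k : ℝ) + 1) * ((k : ℝ) + 2)) ≤
        ∑ k ∈ Finset.range M, log 2 * (((k : ℝ) + 1) * gaussProb k) := by
      rw [← Finset.sum_sub_distrib]
      refine Finset.sum_le_sum fun k _ => ?_
      refine le_trans ?_ ((mul_le_mul_of_nonneg_left (prob_bounds k).1
        (by positivity : (0 : ℝ) ≤ (k : ℝ) + 1)).trans_eq (by ring))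
      rw [inv_eq_one_div, div_sub_div _ _ (by positivity) (by positivity), mul_one_div,
        div_le_div_iff₀ (by positivity) (by positivity)]
      nlinarith [Nat.cast_nonneg (α := ℝ) k]
    rw [htel] at h
    have h3 : log (M : ℝ) ≤ log ((M : ℝ) + 1) :=
      log_le_log (by exact_mod_cast hM) (le_add_of_nonneg_right zero_le_one)
    have h4 : (0 : ℝ) ≤ 2 / ((M : ℝ) + 1) := by positivity
    linarith
  · have h : ∑ k ∈ Finset.range M, log 2 * (((k : ℝ) + 1) * gaussProb k) ≤
        ∑ k ∈ Finset.range M, ((k : ℝ) + 1)⁻¹ := Finset.sum_le_sum fun k _ => by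
      calc log 2 * (((k : ℝ) + 1) * gaussProb k)
          = ((k : ℝ) + 1) * (log 2 * gaussProb k) := by ring
        _ ≤ ((k : ℝ) + 1) * (1 / (((k : ℝ) + 1) * ((k : ℝ) + 3))) :=
          mul_le_mul_of_nonneg_left (prob_bounds k).2 (by positivity)
        _ ≤ ((k : ℝ) + 1)⁻¹ := by
          rw [mul_one_div, inv_eq_one_div, div_le_div_iff₀ (by positivity) (by positivity)]
          nlinarith [Nat.cast_nonneg (α := ℝ) k]
    linarith

theorem truncMean_nonneg (M : ℕ) : 0 ≤ truncMean M :=
  Finset.sum_nonneg fun k _ => mul_nonneg (by positivity) (prob_nonneg k)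

theorem truncMean_le {M : ℕ} (hM : 1 ≤ M) : truncMean M ≤ 2 * log M + 4 := by
  have h := (abs_le.1 (abs_truncMean_sub_le hM)).2
  have hl : (1 / 2 : ℝ) ≤ log 2 := by
    have := one_sub_inv_le_log_of_pos (two_pos (α := ℝ))
    norm_num at this ⊢
    exact this
  nlinarith [mul_le_mul_of_nonneg_right hl (truncMean_nonneg M)]

/-- The sum of the first `N` truncated digits. -/
def truncSum (M N : ℕ) (y : ℝ) : ℝ := ∑ i ∈ Finset.range N, trunc M (gaussMap^[i] y)

theorem measurable_truncSum (M N : ℕ) : Measurable (truncSum M N) :=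
  Finset.measurable_sum _ fun i _ => (Finset.measurable_sum _ fun k _ =>
    measurable_const.mul (measurable_one.indicator (measurableSet_digitSet k))).comp
      (measurable_gaussMap.iterate i)

theorem integrable_digit_pair (k l i j : ℕ) : Integrable (fun y => (digitSet k).indicator
    (1 : ℝ → ℝ) (gaussMap^[i] y) * (digitSet l).indicator 1 (gaussMap^[j] y)) gaussMeasure :=
  Integrable.of_bound (((measurable_one.indicator (measurableSet_digitSet k)).comp
    (measurable_gaussMap.iterate i)).mul ((measurable_one.indicator (measurableSet_digitSet l)).comp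
      (measurable_gaussMap.iterate j))).aestronglyMeasurable 1 (ae_of_all _ fun y => by
    by_cases h1 : gaussMap^[i] y ∈ digitSet k <;> by_cases h2 : gaussMap^[j] y ∈ digitSet l <;>
      simp [h1, h2])

theorem integral_trunc_mul (M i j : ℕ) :
    Integrable (fun y => trunc M (gaussMap^[i] y) * trunc M (gaussMap^[j] y)) gaussMeasure ∧
      ∫ y, trunc M (gaussMap^[i] y) * trunc M (gaussMap^[j] y) ∂gaussMeasure =
        ∑ k ∈ Finset.range M, ∑ l ∈ Finset.range M, ((k : ℝ) + 1) * ((l : ℝ) + 1) *
          gaussMeasure.real (gaussMap^[i] ⁻¹' digitSet k ∩ gaussMap^[j] ⁻¹' digitSet l) := by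
  have hI : ∀ k l : ℕ, Integrable (fun y => ((k : ℝ) + 1) * ((l : ℝ) + 1) *
      ((digitSet k).indicator (1 : ℝ → ℝ) (gaussMap^[i] y) *
        (digitSet l).indicator 1 (gaussMap^[j] y))) gaussMeasure :=
    fun k l => (integrable_digit_pair k l i j).const_mul _
  have e : ∀ y, trunc M (gaussMap^[i] y) * trunc M (gaussMap^[j] y) =
      ∑ k ∈ Finset.range M, ∑ l ∈ Finset.range M, ((k : ℝ) + 1) * ((l : ℝ) + 1) *
        ((digitSet k).indicator (1 : ℝ → ℝ) (gaussMap^[i] y) *
          (digitSet l).indicator 1 (gaussMap^[j] y)) := fun y => by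
    rw [trunc, trunc, Finset.sum_mul_sum]
    exact Finset.sum_congr rfl fun k _ => Finset.sum_congr rfl fun l _ => by ring
  simp only [e]
  refine ⟨integrable_finsetSum _ fun k _ => integrable_finsetSum _ fun l _ => hI k l, ?_⟩
  rw [integral_finsetSum _ fun k _ => integrable_finsetSum _ fun l _ => hI k l]
  refine Finset.sum_congr rfl fun k _ => ?_
  rw [integral_finsetSum _ fun l _ => hI k l]
  refine Finset.sum_congr rfl fun l _ => ?_
  rw [integral_const_mul, ← integral_indicator_one (((measurable_gaussMap.iterate i)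
    (measurableSet_digitSet k)).inter ((measurable_gaussMap.iterate j) (measurableSet_digitSet l)))]
  congr 1
  refine integral_congr_ae (ae_of_all _ fun y => ?_)
  by_cases h1 : gaussMap^[i] y ∈ digitSet k <;> by_cases h2 : gaussMap^[j] y ∈ digitSet l <;>
    simp [h1, h2]

theorem integral_trunc (M i : ℕ) :
    Integrable (fun y => trunc M (gaussMap^[i] y)) gaussMeasure ∧
      ∫ y, trunc M (gaussMap^[i] y) ∂gaussMeasure = truncMean M := by
  have hI : ∀ k : ℕ, Integrable (fun y => ((k : ℝ) + 1) *
      (gaussMap^[i] ⁻¹' digitSet k).indicator (1 : ℝ → ℝ) y) gaussMeasure := fun k =>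
    ((integrable_const 1).indicator
      ((measurable_gaussMap.iterate i) (measurableSet_digitSet k))).const_mul _
  have e : ∀ y, trunc M (gaussMap^[i] y) = ∑ k ∈ Finset.range M,
      ((k : ℝ) + 1) * (gaussMap^[i] ⁻¹' digitSet k).indicator (1 : ℝ → ℝ) y := fun y =>
    Finset.sum_congr rfl fun k _ => by by_cases h : gaussMap^[i] y ∈ digitSet k <;> simp [h]
  simp only [e]
  refine ⟨integrable_finsetSum _ fun k _ => hI k, ?_⟩
  rw [integral_finsetSum _ fun k _ => hI k, truncMean]
  refine Finset.sum_congr rfl fun k _ => ?_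
  rw [integral_const_mul, integral_indicator_one ((measurable_gaussMap.iterate i)
    (measurableSet_digitSet k)), measureReal_def,
    (measurePreserving_gaussMap.iterate i).measure_preimage
      (measurableSet_digitSet k).nullMeasurableSet, ← measureReal_def, gaussMeasureReal_digitSet]

theorem cov_trunc_le (M : ℕ) {i j : ℕ} (hij : i ≤ j) :
    ∫ y, trunc M (gaussMap^[i] y) * trunc M (gaussMap^[j] y) ∂gaussMeasure - truncMean M ^ 2 ≤
      (11 / 12) ^ (j - i) * (2 * M + 18 * truncMean M ^ 2) := by
  rw [(integral_trunc_mul M i j).2]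
  rcases hij.eq_or_lt with rfl | h
  · rw [Nat.sub_self, pow_zero, one_mul]
    have hle : ∑ k ∈ Finset.range M, ∑ l ∈ Finset.range M, ((k : ℝ) + 1) * ((l : ℝ) + 1) *
        gaussMeasure.real (gaussMap^[i] ⁻¹' digitSet k ∩ gaussMap^[i] ⁻¹' digitSet l) ≤
        ∑ k ∈ Finset.range M, (2 : ℝ) := by
      refine Finset.sum_le_sum fun k hk => ?_
      rw [Finset.sum_eq_single_of_mem k hk]
      · rw [inter_self, measureReal_def, (measurePreserving_gaussMap.iterate i).measure_preimage
          (measurableSet_digitSet k).nullMeasurableSet, ← measureReal_def,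
          gaussMeasureReal_digitSet]
        have h2 := mul_le_mul_of_nonneg_left (prob_bounds k).2
          (by positivity : (0 : ℝ) ≤ ((k : ℝ) + 1) ^ 2)
        have h3 : ((k : ℝ) + 1) ^ 2 * (1 / (((k : ℝ) + 1) * ((k : ℝ) + 3))) ≤ 1 := by
          rw [mul_one_div, div_le_one (by positivity)]
          nlinarith [Nat.cast_nonneg (α := ℝ) k]
        have hl : (1 / 2 : ℝ) ≤ log 2 := by
          have := one_sub_inv_le_log_of_pos (two_pos (α := ℝ))
          norm_num at this ⊢
          exact this
        nlinarith [mul_le_mul_of_nonneg_right hl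
          (mul_nonneg (sq_nonneg ((k : ℝ) + 1)) (prob_nonneg k))]
      · intro l _ hlk
        rw [← preimage_inter, show digitSet k ∩ digitSet l = ∅ from Set.eq_empty_of_forall_notMem
          fun z hz => hlk (by
            have h1 : ⌊z⁻¹⌋ = (k : ℤ) + 1 := hz.1
            have h2 : ⌊z⁻¹⌋ = (l : ℤ) + 1 := hz.2
            omega), preimage_empty, measureReal_empty, mul_zero]
    rw [Finset.sum_const, Finset.card_range, nsmul_eq_mul] at hle
    linarith [sq_nonneg (truncMean M)]
  obtain ⟨d, rfl⟩ : ∃ d, j = i + (d + 1) := ⟨j - i - 1, by omega⟩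
  rw [Nat.add_sub_cancel_left, pow_succ (11 / 12 : ℝ)]
  have hterm : ∀ k l : ℕ, ((k : ℝ) + 1) * ((l : ℝ) + 1) *
      gaussMeasure.real (gaussMap^[i] ⁻¹' digitSet k ∩ gaussMap^[i + (d + 1)] ⁻¹' digitSet l) ≤
      (1 + 16 * (11 / 12) ^ d) *
        ((((k : ℝ) + 1) * gaussProb k) * (((l : ℝ) + 1) * gaussProb l)) :=
    fun k l => by
      have h := (abs_le.1 (abs_digit_pair_sub_le k l i d)).2
      calc _ ≤ ((k : ℝ) + 1) * ((l : ℝ) + 1) *
          ((1 + 16 * (11 / 12) ^ d) * (gaussProb k * gaussProb l)) :=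
            mul_le_mul_of_nonneg_left (by linarith) (by positivity)
        _ = _ := by ring
  have hsum := Finset.sum_le_sum (s := Finset.range M) fun k _ =>
    Finset.sum_le_sum (s := Finset.range M) fun l _ => hterm k l
  simp only [← Finset.mul_sum, ← Finset.sum_mul] at hsum
  rw [← truncMean] at hsum
  have hp : (0 : ℝ) ≤ (11 / 12) ^ d := by positivity
  nlinarith [mul_nonneg hp (Nat.cast_nonneg (α := ℝ) M), mul_nonneg hp (sq_nonneg (truncMean M))]

theorem sum_decay_le (i N : ℕ) :
    ∑ j ∈ Finset.range N, (11 / 12 : ℝ) ^ Nat.dist i j ≤ 24 := by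
  have hgeo : ∀ M, ∑ k ∈ Finset.range M, (11 / 12 : ℝ) ^ k ≤ 12 := fun M => by
    rw [geom_sum_eq (by norm_num)]
    have : (0 : ℝ) ≤ (11 / 12) ^ M := by positivity
    rw [div_le_iff_of_neg (by norm_num)]
    linarith
  refine (Finset.sum_le_sum_of_subset_of_nonneg
    (Finset.range_subset_range.2 (Nat.le_add_left N (i + 1))) fun k _ _ => by positivity).trans ?_
  rw [Finset.sum_range_add, show (24 : ℝ) = 12 + 12 by norm_num]
  refine add_le_add ?_ ?_
  · rw [← Finset.sum_range_reflect]
    refine le_trans (le_of_eq (Finset.sum_congr rfl fun k hk => ?_)) (hgeo (i + 1))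
    rw [Finset.mem_range] at hk
    congr 1
    rw [Nat.dist_eq_sub_of_le_right (by omega)]
    omega
  · refine le_trans (Finset.sum_le_sum fun k _ => ?_) (hgeo N)
    refine pow_le_pow_of_le_one (by norm_num) (by norm_num) ?_
    rw [Nat.dist_eq_sub_of_le (by omega)]
    omega

/-- **The variance.** -/
theorem variance_truncSum_le {M : ℕ} (hM : 1 ≤ M) (N : ℕ) :
    Integrable (fun y => (truncSum M N y - N * truncMean M) ^ 2) gaussMeasure ∧
      ∫ y, (truncSum M N y - N * truncMean M) ^ 2 ∂gaussMeasure ≤ 28000 * N * M := by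
  set m := truncMean M
  set F : ℕ → ℕ → ℝ → ℝ := fun i j y =>
    trunc M (gaussMap^[i] y) * trunc M (gaussMap^[j] y) - m * trunc M (gaussMap^[i] y) -
      m * trunc M (gaussMap^[j] y) + m ^ 2 with hF
  have h0 : ∀ i j, Integrable (fun y => trunc M (gaussMap^[i] y) * trunc M (gaussMap^[j] y) -
      m * trunc M (gaussMap^[i] y)) gaussMeasure := fun i j =>
    (integral_trunc_mul M i j).1.sub ((integral_trunc M i).1.const_mul _)
  have hint : ∀ i j, Integrable (F i j) gaussMeasure := fun i j =>
    ((h0 i j).sub ((integral_trunc M j).1.const_mul _)).add (integrable_const _)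
  have e : ∀ y, (truncSum M N y - N * m) ^ 2 =
      ∑ i ∈ Finset.range N, ∑ j ∈ Finset.range N, F i j y := fun y => by
    have hsplit : truncSum M N y - N * m =
        ∑ i ∈ Finset.range N, (trunc M (gaussMap^[i] y) - m) := by
      rw [Finset.sum_sub_distrib, Finset.sum_const, Finset.card_range, nsmul_eq_mul, truncSum]
    rw [hsplit, sq, Finset.sum_mul_sum]
    exact Finset.sum_congr rfl fun i _ => Finset.sum_congr rfl fun j _ => by simp only [hF]; ring
  simp only [e]
  refine ⟨integrable_finsetSum _ fun i _ => integrable_finsetSum _ fun j _ => hint i j, ?_⟩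
  rw [integral_finsetSum _ fun i _ => integrable_finsetSum _ fun j _ => hint i j]
  set C := 2 * (M : ℝ) + 18 * m ^ 2 with hC
  have hval : ∀ i j, ∫ y, F i j y ∂gaussMeasure ≤ (11 / 12) ^ Nat.dist i j * C := fun i j => by
    have h1 : ∫ y, F i j y ∂gaussMeasure =
        ∫ y, trunc M (gaussMap^[i] y) * trunc M (gaussMap^[j] y) ∂gaussMeasure - m ^ 2 := by
      simp only [hF]
      have h2 : Integrable (fun y => trunc M (gaussMap^[i] y) * trunc M (gaussMap^[j] y) -
          m * trunc M (gaussMap^[i] y) - m * trunc M (gaussMap^[j] y)) gaussMeasure :=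
        (h0 i j).sub ((integral_trunc M j).1.const_mul _)
      rw [integral_add h2 (integrable_const _), integral_sub (h0 i j)
        ((integral_trunc M j).1.const_mul _), integral_sub (integral_trunc_mul M i j).1
        ((integral_trunc M i).1.const_mul _), integral_const_mul, integral_const_mul,
        (integral_trunc M i).2, (integral_trunc M j).2, integral_const, probReal_univ, one_smul]
      ring
    rw [h1]
    rcases le_total i j with h | h
    · rw [Nat.dist_eq_sub_of_le h]
      exact cov_trunc_le M h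
    · rw [Nat.dist_eq_sub_of_le_right h]
      simp only [mul_comm (trunc M (gaussMap^[i] _))]
      exact cov_trunc_le M h
  have hC' : C ≤ 1154 * M := by
    have hM' : (1 : ℝ) ≤ M := by exact_mod_cast hM
    have h1 : 1 ≤ sqrt (M : ℝ) := one_le_sqrt.2 hM'
    have h2 : log (sqrt (M : ℝ)) ≤ sqrt (M : ℝ) := log_le_self (Real.sqrt_nonneg _)
    rw [log_sqrt (by linarith)] at h2
    have h3 : m ≤ 8 * sqrt (M : ℝ) := (truncMean_le hM).trans (by linarith)
    have h4 := pow_le_pow_left₀ (truncMean_nonneg M) h3 2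
    rw [mul_pow, sq_sqrt (by linarith)] at h4
    rw [hC]
    linarith
  calc ∑ i ∈ Finset.range N, ∫ y, ∑ j ∈ Finset.range N, F i j y ∂gaussMeasure
      ≤ ∑ i ∈ Finset.range N, 24 * C := by
        refine Finset.sum_le_sum fun i _ => ?_
        rw [integral_finsetSum _ fun j _ => hint i j]
        refine (Finset.sum_le_sum fun j _ => hval i j).trans ?_
        rw [← Finset.sum_mul]
        exact mul_le_mul_of_nonneg_right (sum_decay_le i N)
          (by rw [hC]; positivity)
    _ = N * (24 * C) := by rw [Finset.sum_const, Finset.card_range, nsmul_eq_mul]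
    _ ≤ 28000 * N * M := by
        nlinarith [mul_le_mul_of_nonneg_left hC' (Nat.cast_nonneg (α := ℝ) N),
          mul_nonneg (Nat.cast_nonneg (α := ℝ) N) (Nat.cast_nonneg (α := ℝ) M)]

/-- The sum of the first `N` digits. -/
def digitSum (N : ℕ) (y : ℝ) : ℝ := ∑ i ∈ Finset.range N, (⌊(gaussMap^[i] y)⁻¹⌋ : ℝ)

theorem measurable_digitSum (N : ℕ) : Measurable (digitSum N) :=
  Finset.measurable_sum _ fun i _ =>
    (measurable_from_top.comp (Int.measurable_floor.comp measurable_inv)).comp
      (measurable_gaussMap.iterate i)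

/-- **The deviation of the sum of the digits.** -/
theorem gauss_deviation_le {M : ℕ} (hM : 1 ≤ M) (N : ℕ) {δ : ℝ} (hδ : 0 < δ) :
    gaussMeasure.real {y | δ ≤ |digitSum N y - N * truncMean M|} ≤
      2 * N / M + 28000 * N * M / δ ^ 2 := by
  set E := {y | δ ≤ |digitSum N y - N * truncMean M|}
  set F := {y | δ ≤ |truncSum M N y - N * truncMean M|}
  set G := ⋃ i ∈ Finset.range N, gaussMap^[i] ⁻¹' BorelBernstein.big ((M : ℝ) + 1)
  have hirr : ∀ᵐ y ∂gaussMeasure, y ∈ unitIrr := by
    filter_upwards [ae_gaussMeasure_mem, gaussMeasure_absolutelyContinuous.ae_le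
      (ae_restrict_of_ae (countable_not_irrational.ae_notMem volume))] with y hy hy'
    exact ⟨hy, not_not.1 hy'⟩
  have hsub : E ≤ᵐ[gaussMeasure] (G ∪ F : Set ℝ) := by
    filter_upwards [hirr] with y hy (hE : δ ≤ |digitSum N y - N * truncMean M|)
    by_cases hG : y ∈ G
    · exact Or.inl hG
    refine Or.inr ?_
    have e : digitSum N y = truncSum M N y := Finset.sum_congr rfl fun i hi => by
      have hmem := (iterate_mem_unitIrr hy i).1
      have h1 : 1 ≤ ⌊(gaussMap^[i] y)⁻¹⌋ :=
        Int.le_floor.2 (by exact_mod_cast ((one_lt_inv₀ hmem.1).2 hmem.2).le)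
      refine (trunc_eq h1 ?_).symm
      by_contra hlt
      refine hG (mem_iUnion₂.2 ⟨i, hi, ?_⟩)
      change (M : ℝ) + 1 ≤ (⌊(gaussMap^[i] y)⁻¹⌋ : ℝ)
      exact_mod_cast (by omega : (M : ℤ) + 1 ≤ ⌊(gaussMap^[i] y)⁻¹⌋)
    change δ ≤ |truncSum M N y - N * truncMean M|
    rwa [← e]
  have hGle : gaussMeasure.real G ≤ 2 * N / M := by
    refine (measureReal_biUnion_finset_le _ _).trans ?_
    refine (Finset.sum_le_sum fun i _ => (?_ : _ ≤ 2 / (M : ℝ))).trans_eq ?_
    · rw [measureReal_def, (measurePreserving_gaussMap.iterate i).measure_preimage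
        (BorelBernstein.measurableSet_big _).nullMeasurableSet]
      have hM' : (1 : ℝ) ≤ M := by exact_mod_cast hM
      refine (ENNReal.toReal_mono ENNReal.ofReal_ne_top
        (BorelBernstein.gaussMeasure_big_le (by linarith))).trans ?_
      have hl : (1 / 2 : ℝ) ≤ log 2 := by
        have := one_sub_inv_le_log_of_pos (two_pos (α := ℝ))
        norm_num at this ⊢
        exact this
      rw [ENNReal.toReal_ofReal (by positivity), div_le_div_iff₀ (by positivity) (by linarith)]
      nlinarith [mul_le_mul_of_nonneg_left hl (by linarith : (0 : ℝ) ≤ (M : ℝ) + 1)]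
    · rw [Finset.sum_const, Finset.card_range, nsmul_eq_mul]
      ring
  have hFle : gaussMeasure.real F ≤ 28000 * N * M / δ ^ 2 := by
    have hFm : MeasurableSet F :=
      (continuous_abs.measurable.comp ((measurable_truncSum M N).sub_const _))
        (measurableSet_Ici (a := δ))
    have h := (integral_mono ((integrable_const (δ ^ 2)).indicator hFm)
      (variance_truncSum_le hM N).1 fun y => by
      by_cases hy : y ∈ F
      · rw [indicator_of_mem hy, ← sq_abs (truncSum M N y - _)]
        exact pow_le_pow_left₀ hδ.le hy 2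
      · rw [indicator_of_notMem hy]
        exact sq_nonneg _).trans (variance_truncSum_le hM N).2
    rw [integral_indicator hFm, setIntegral_const, smul_eq_mul] at h
    rwa [le_div_iff₀ (by positivity)]
  refine le_trans ?_ (add_le_add hGle hFle)
  refine le_trans ?_ (measureReal_union_le G F)
  exact ENNReal.toReal_mono (measure_ne_top _ _) (measure_mono_ae hsub)

end FA.QuotientSums
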